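/-
Eichler-type primitives of cusp forms, vanishing at i∞.
-/
import Mathlib

set_option autoImplicit false

namespace Fermat.Agent.S22aux

open Complex Filter Topology Metric Function

local notation "𝕢" => Function.Periodic.qParam

/-- analytic on the open unit disc and vanishing at `0` -/
def DiscCusp (H : ℂ → ℂ) : Prop := DifferentiableOn ℂ H (ball 0 1) ∧ H 0 = 0

/-- the filter "`im z → ∞` with `re z` bounded by `B`" -/
def stripFilter (B : ℝ) : Filter ℂ := comap im atTop ⊓ 𝓟 {z | |z.re| ≤ B}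

/-- `G` decays at `i∞` faster than any power, uniformly in vertical strips. -/
def RapidDecay (G : ℂ → ℂ) : Prop :=
  ∀ (B : ℝ) (s : ℕ), Tendsto (fun z => G z * z ^ s) (stripFilter B) (𝓝 0)

/-- `G` is the primitive of `g` on the upper half plane which decays at `i∞`. -/
structure IsPrim (G g : ℂ → ℂ) : Prop where
  deriv : ∀ z : ℂ, 0 < z.im → HasDerivAt G (g z) z
  decay : RapidDecay G

theorem stripFilter_neBot (B : ℝ) (hB : 0 ≤ B) : (stripFilter B).NeBot := by
  unfold stripFilter
  rw [inf_principal_neBot_iff]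
  intro U hU
  rw [mem_comap] at hU
  obtain ⟨t, ht, htU⟩ := hU
  obtain ⟨y, hy⟩ := (mem_atTop_sets.mp ht)
  refine ⟨⟨0, y⟩, htU ?_, ?_⟩
  · simpa using hy y le_rfl
  · simpa using hB

theorem stripFilter_mono {B B' : ℝ} (h : B ≤ B') : stripFilter B ≤ stripFilter B' := by
  unfold stripFilter
  exact inf_le_inf_left _ (principal_mono.mpr fun z hz => le_trans hz h)

theorem eventually_im_gt (B : ℝ) (A : ℝ) : ∀ᶠ z : ℂ in stripFilter B, A < z.im := by
  unfold stripFilter
  exact (eventually_of_mem (preimage_mem_comap (Ioi_mem_atTop A)) (fun z hz => hz)).filter_mono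
    inf_le_left

theorem eventually_abs_re_le (B : ℝ) : ∀ᶠ z : ℂ in stripFilter B, |z.re| ≤ B := by
  unfold stripFilter
  exact (eventually_principal.mpr (fun z hz => hz)).filter_mono inf_le_right

namespace RapidDecay

theorem tendsto_zero {G : ℂ → ℂ} (hG : RapidDecay G) (B : ℝ) :
    Tendsto G (stripFilter B) (𝓝 0) := by
  simpa using hG B 0

theorem add {G G' : ℂ → ℂ} (hG : RapidDecay G) (hG' : RapidDecay G') :
    RapidDecay (fun z => G z + G' z) := by
  intro B s
  simpa [add_mul] using (hG B s).add (hG' B s)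

theorem const_mul {G : ℂ → ℂ} (hG : RapidDecay G) (c : ℂ) :
    RapidDecay (fun z => c * G z) := by
  intro B s
  simpa [mul_assoc] using (hG B s).const_mul c

theorem mul_pow {G : ℂ → ℂ} (hG : RapidDecay G) (n : ℕ) :
    RapidDecay (fun z => G z * z ^ n) := by
  intro B s
  have := hG B (n + s)
  simpa [pow_add, mul_assoc] using this

theorem zero : RapidDecay (fun _ => 0) := by
  intro B s
  simpa using tendsto_const_nhds

theorem sum {ι : Type*} (t : Finset ι) {G : ι → ℂ → ℂ} (hG : ∀ i ∈ t, RapidDecay (G i)) :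
    RapidDecay (fun z => ∑ i ∈ t, G i z) := by
  intro B s
  have : Tendsto (fun z => ∑ i ∈ t, G i z * z ^ s) (stripFilter B) (𝓝 (∑ i ∈ t, 0)) :=
    tendsto_finsetSum t fun i hi => hG i hi B s
  simpa [Finset.sum_mul] using this

end RapidDecay

/-- a function of the form `H (𝕢 h z)` with `H` vanishing at `0` decays rapidly -/
theorem rapidDecay_of_discCusp {h : ℝ} (hh : 0 < h) {H : ℂ → ℂ} (hH : DiscCusp H) :
    RapidDecay (fun z => H (𝕢 h z)) := by
  intro B s
  -- `H q = O(q)`
  have hdiff : DifferentiableAt ℂ H 0 := hH.1.differentiableAt (ball_mem_nhds 0 one_pos)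
  have hO : H =O[𝓝 0] (fun q => q) := by
    have := hdiff.isBigO_sub
    simpa [hH.2] using this
  have hq : Tendsto (fun z : ℂ => 𝕢 h z) (stripFilter B) (𝓝 0) :=
    ((Periodic.qParam_tendsto hh).mono_right nhdsWithin_le_nhds).mono_left inf_le_left
  have hO' : (fun z => H (𝕢 h z)) =O[stripFilter B] (fun z => 𝕢 h z) := hO.comp_tendsto hq
  have hbound : (fun z : ℂ => z ^ s) =O[stripFilter B] (fun z : ℂ => (z.im) ^ s) := by
    refine Asymptotics.IsBigO.pow ?_ s
    refine Asymptotics.IsBigO.of_bound (|B| + 1) ?_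
    filter_upwards [eventually_abs_re_le B, eventually_im_gt B 1] with z hz hz1
    have h1 : ‖z‖ ≤ |z.re| + |z.im| := norm_le_abs_re_add_abs_im z
    have h2 : |z.re| ≤ |B| := hz.trans (le_abs_self B)
    have h3 : (1 : ℝ) ≤ |z.im| := hz1.le.trans (le_abs_self _)
    rw [Real.norm_eq_abs]
    nlinarith [abs_nonneg B, abs_nonneg z.im]
  have hmul := hO'.norm_right.mul hbound
  refine hmul.trans_tendsto ?_
  rw [tendsto_zero_iff_norm_tendsto_zero]
  have hexp : Tendsto (fun y : ℝ => y ^ s * Real.exp (-(2 * Real.pi / h) * y)) atTop (𝓝 0) := by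
    have hb : 0 < 2 * Real.pi / h := by positivity
    have := Real.tendsto_pow_mul_exp_neg_atTop_nhds_zero s
    have h2 := (this.comp (tendsto_id.const_mul_atTop hb)).const_mul ((2 * Real.pi / h) ^ s)⁻¹
    refine (h2.congr' ?_).trans (by simp)
    filter_upwards with y
    simp only [Function.comp, id]
    rw [mul_pow]
    field_simp
  have hexp' : Tendsto (fun z : ℂ => (z.im) ^ s * Real.exp (-(2 * Real.pi / h) * z.im))
      (stripFilter B) (𝓝 0) := by
    exact (hexp.comp tendsto_comap).mono_left inf_le_left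
  refine hexp'.congr' ?_
  filter_upwards [eventually_im_gt B 0] with z hz
  rw [norm_mul, norm_norm, Periodic.norm_qParam, mul_comm]
  congr 1
  · congr 1
    ring
  · rw [norm_pow, Real.norm_of_nonneg hz.le]

theorem exists_prim_disc {h : ℝ} (hh : 0 < h) {H : ℂ → ℂ} (hH : DiscCusp H) :
    ∃ H₁, DiscCusp H₁ ∧ ∀ z : ℂ, 0 < z.im →
      HasDerivAt (fun w => H₁ (𝕢 h w)) (H (𝕢 h z)) z := by
  have hΨ : DifferentiableOn ℂ (dslope H 0) (ball 0 1) :=
    (Complex.differentiableOn_dslope (ball_mem_nhds 0 one_pos)).mpr hH.1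
  obtain ⟨P, hP0, hP⟩ := hΨ.isExactOn_ball.with_val_at 0 0
  refine ⟨fun q => (h / (2 * Real.pi * I)) * P q, ⟨?_, by simp [hP0]⟩, ?_⟩
  · exact (fun q hq => ((hP q hq).differentiableAt.const_mul _).differentiableWithinAt)
  · intro z hz
    have hq1 : 𝕢 h z ∈ ball (0 : ℂ) 1 := by
      rw [mem_ball_zero_iff]; exact Periodic.norm_qParam_lt_one hh hz
    have hqd : HasDerivAt (𝕢 h) (𝕢 h z * (2 * Real.pi * I / h)) z := by
      unfold Periodic.qParam
      have : HasDerivAt (fun w : ℂ => 2 * Real.pi * I * w / h) (2 * Real.pi * I / h) z := by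
        have := ((hasDerivAt_id z).const_mul (2 * Real.pi * I)).div_const (h : ℂ)
        simpa using this
      exact this.cexp
    have hcomp := ((hP _ hq1).comp z hqd).const_mul ((h : ℂ) / (2 * Real.pi * I))
    have hds : dslope H 0 (𝕢 h z) = (𝕢 h z)⁻¹ * H (𝕢 h z) := by
      rw [dslope_of_ne _ (Periodic.qParam_ne_zero z), slope_def_field, hH.2]
      simp [div_eq_inv_mul]
    refine hcomp.congr_deriv ?_
    rw [hds]
    have h1 : 𝕢 h z ≠ 0 := Periodic.qParam_ne_zero z
    have h2 : (h : ℂ) ≠ 0 := by exact_mod_cast hh.ne'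
    have h3 : (Real.pi : ℂ) ≠ 0 := by exact_mod_cast Real.pi_ne_zero
    field_simp

theorem exists_prim_pow {h : ℝ} (hh : 0 < h) (j : ℕ) :
    ∀ {H : ℂ → ℂ}, DiscCusp H → ∃ G, IsPrim G (fun z => H (𝕢 h z) * z ^ j) := by
  induction j with
  | zero =>
    intro H hH
    obtain ⟨H₁, hH₁, hd⟩ := exists_prim_disc hh hH
    exact ⟨fun z => H₁ (𝕢 h z), by simpa using hd, rapidDecay_of_discCusp hh hH₁⟩
  | succ j ih =>
    intro H hH
    obtain ⟨H₁, hH₁, hd⟩ := exists_prim_disc hh hH
    obtain ⟨G', hG'⟩ := ih hH₁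
    refine ⟨fun z => H₁ (𝕢 h z) * z ^ (j + 1) + (-((j : ℂ) + 1)) * G' z, ?_, ?_⟩
    · intro z hz
      have h1 := (hd z hz).mul (hasDerivAt_pow (j + 1) z)
      have h2 := (hG'.deriv z hz).const_mul (-((j : ℂ) + 1))
      refine (h1.add h2).congr_deriv ?_
      push_cast
      ring_nf
    · exact ((rapidDecay_of_discCusp hh hH₁).mul_pow _).add (hG'.decay.const_mul _)

/-- the upper half plane as a subset of `ℂ` is preconnected -/
theorem isPreconnected_uhp : IsPreconnected {z : ℂ | 0 < z.im} :=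
  (convex_halfSpace_im_gt 0).isPreconnected

theorem isOpen_uhp : IsOpen {z : ℂ | 0 < z.im} := isOpen_lt continuous_const continuous_im

/-- a function with zero derivative on the upper half plane is constant there -/
theorem const_of_deriv_zero {G : ℂ → ℂ} (hG : ∀ z : ℂ, 0 < z.im → HasDerivAt G 0 z)
    {z w : ℂ} (hz : 0 < z.im) (hw : 0 < w.im) : G z = G w := by
  have hd : DifferentiableOn ℂ G {z : ℂ | 0 < z.im} :=
    fun x hx => (hG x hx).differentiableAt.differentiableWithinAt
  exact isOpen_uhp.is_const_of_deriv_eq_zero isPreconnected_uhp hd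
    (fun x hx => (hG x hx).deriv) hz hw

theorem IsPrim.unique {G G' g g' : ℂ → ℂ} (hG : IsPrim G g) (hG' : IsPrim G' g')
    (hgg' : ∀ z : ℂ, 0 < z.im → g z = g' z) {z : ℂ} (hz : 0 < z.im) : G z = G' z := by
  set D : ℂ → ℂ := fun w => G w - G' w with hD
  have hDd : ∀ w : ℂ, 0 < w.im → HasDerivAt D 0 w := by
    intro w hw
    have := (hG.deriv w hw).sub (hG'.deriv w hw)
    rw [hgg' w hw, sub_self] at this
    exact this
  have hDlim : Tendsto D (stripFilter 0) (𝓝 0) := by
    have := (hG.decay.tendsto_zero 0).sub (hG'.decay.tendsto_zero 0)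
    simpa using this
  have := stripFilter_neBot 0 le_rfl
  have hconst : Tendsto D (stripFilter 0) (𝓝 (D z)) := by
    refine tendsto_const_nhds.congr' ?_
    filter_upwards [eventually_im_gt 0 0] with w hw
    exact const_of_deriv_zero hDd hz hw
  have := tendsto_nhds_unique hconst hDlim
  exact sub_eq_zero.mp this

theorem IsPrim.congr {G g g' : ℂ → ℂ} (hG : IsPrim G g)
    (hgg' : ∀ z : ℂ, 0 < z.im → g z = g' z) : IsPrim G g' :=
  ⟨fun z hz => hgg' z hz ▸ hG.deriv z hz, hG.decay⟩

theorem IsPrim.add {G G' g g' : ℂ → ℂ} (hG : IsPrim G g) (hG' : IsPrim G' g') :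
    IsPrim (fun z => G z + G' z) (fun z => g z + g' z) :=
  ⟨fun z hz => (hG.deriv z hz).add (hG'.deriv z hz), hG.decay.add hG'.decay⟩

theorem IsPrim.const_mul {G g : ℂ → ℂ} (hG : IsPrim G g) (c : ℂ) :
    IsPrim (fun z => c * G z) (fun z => c * g z) :=
  ⟨fun z hz => (hG.deriv z hz).const_mul c, hG.decay.const_mul c⟩

theorem IsPrim.sum {ι : Type*} (t : Finset ι) {G g : ι → ℂ → ℂ}
    (hG : ∀ i ∈ t, IsPrim (G i) (g i)) :
    IsPrim (fun z => ∑ i ∈ t, G i z) (fun z => ∑ i ∈ t, g i z) :=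
  ⟨fun z hz => HasDerivAt.fun_sum fun i hi => (hG i hi).deriv z hz,
    RapidDecay.sum t fun i hi => (hG i hi).decay⟩

end Fermat.Agent.S22aux
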