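/-
The vector-valued Eichler integral `E φ m τ x y` of a cusp form `φ` of weight `m + 2`:
the primitive of `φ(z) (x - z y)^m dz` vanishing at `i∞`.
-/
import Mathlib
import Fermat.Agent.S22.Prim

set_option autoImplicit false

namespace Fermat.Agent.S22aux

open Complex Filter Topology Metric Function UpperHalfPlane
open scoped MatrixGroups ModularForm Manifold

local notation "𝕢" => Function.Periodic.qParam

namespace RapidDecay

theorem comp_affine {G : ℂ → ℂ} (hG : RapidDecay G) {a b : ℝ} (ha : 0 < a) :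
    RapidDecay (fun z => G (a * z + b)) := by
  intro B s
  have hmap : Tendsto (fun z : ℂ => (a : ℂ) * z + b) (stripFilter B)
      (stripFilter (a * |B| + |b|)) := by
    unfold stripFilter
    refine tendsto_inf.mpr ⟨?_, ?_⟩
    · rw [tendsto_comap_iff]
      have : (Complex.im ∘ fun z : ℂ => (a : ℂ) * z + b) = fun z => a * z.im := by
        ext z; simp
      rw [this]
      exact (tendsto_comap.const_mul_atTop ha).mono_left inf_le_left
    · rw [tendsto_principal]
      have := eventually_abs_re_le B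
      unfold stripFilter at this
      filter_upwards [this] with z hz
      simp only [add_re, mul_re, ofReal_re, ofReal_im, zero_mul, sub_zero]
      calc |a * z.re + b| ≤ |a * z.re| + |b| := abs_add_le _ _
        _ = a * |z.re| + |b| := by rw [abs_mul, abs_of_pos ha]
        _ ≤ a * |B| + |b| := by
          have : |z.re| ≤ |B| := hz.trans (le_abs_self B)
          nlinarith
  have key : Tendsto (fun w : ℂ => G w * (w + (-(b : ℂ))) ^ s) (stripFilter (a * |B| + |b|))
      (𝓝 0) := by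
    have : (fun w : ℂ => G w * (w + (-(b : ℂ))) ^ s) = fun w =>
        ∑ i ∈ Finset.range (s + 1), (G w * w ^ i) * ((-(b : ℂ)) ^ (s - i) * (s.choose i : ℂ)) := by
      ext w
      rw [add_pow, Finset.mul_sum]
      exact Finset.sum_congr rfl fun i _ => by ring
    rw [this]
    have h0 : (0 : ℂ) = ∑ i ∈ Finset.range (s + 1), 0 * ((-(b : ℂ)) ^ (s - i) * (s.choose i : ℂ)) := by
      simp
    rw [h0]
    exact tendsto_finsetSum _ fun i _ => (hG _ i).mul_const _
  have h2 := (key.comp hmap).const_mul (((a : ℂ) ^ s)⁻¹)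
  rw [mul_zero] at h2
  refine h2.congr fun z => ?_
  simp only [Function.comp]
  have ha' : (a : ℂ) ≠ 0 := by exact_mod_cast ha.ne'
  rw [show (a : ℂ) * z + b + -b = a * z by ring, _root_.mul_pow]
  field_simp

end RapidDecay

/-- total choice of primitive of `φ(z) z^j` -/
noncomputable def prim (φ : ℍ → ℂ) (j : ℕ) : ℂ → ℂ :=
  Classical.epsilon fun G => IsPrim G (fun z => φ (ofComplex z) * z ^ j)

/-- all `φ(z) z^j` have primitives decaying at `i∞` -/
def HasPrims (φ : ℍ → ℂ) : Prop := ∀ j : ℕ, ∃ G, IsPrim G (fun z => φ (ofComplex z) * z ^ j)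

theorem HasPrims.isPrim {φ : ℍ → ℂ} (h : HasPrims φ) (j : ℕ) :
    IsPrim (prim φ j) (fun z => φ (ofComplex z) * z ^ j) :=
  Classical.epsilon_spec (h j)

theorem HasPrims.of_cuspLike {h : ℝ} (hh : 0 < h) {φ : ℍ → ℂ} (hol : MDiff φ)
    (per : Periodic (φ ∘ ofComplex) h) (zero : IsZeroAtImInfty φ) : HasPrims φ := by
  intro j
  have hbdd : IsBoundedAtImInfty φ := zero.isBoundedAtImInfty
  have hH : DiscCusp (UpperHalfPlane.cuspFunction h φ) :=
    ⟨differentiableOn_cuspFunction_ball hh per hol hbdd, zero.cuspFunction_apply_zero hh⟩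
  obtain ⟨G, hG⟩ := exists_prim_pow hh j hH
  refine ⟨G, hG.congr fun z hz => ?_⟩
  have := UpperHalfPlane.eq_cuspFunction (h := h) ⟨z, hz⟩ hh.ne' per
  rw [UpperHalfPlane.ofComplex_apply_of_im_pos hz]
  simp only at this ⊢
  rw [← this]

/-- The Eichler integral. -/
noncomputable def Eint (φ : ℍ → ℂ) (m : ℕ) (z x y : ℂ) : ℂ :=
  ∑ j ∈ Finset.range (m + 1), (m.choose j * x ^ (m - j) * (-y) ^ j) * prim φ j z

theorem isPrim_Eint {φ : ℍ → ℂ} (h : HasPrims φ) (m : ℕ) (x y : ℂ) :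
    IsPrim (fun z => Eint φ m z x y) (fun z => φ (ofComplex z) * (x - z * y) ^ m) := by
  unfold Eint
  refine (IsPrim.sum (Finset.range (m + 1)) (fun j _ => (h.isPrim j).const_mul
    (m.choose j * x ^ (m - j) * (-y) ^ j))).congr fun z hz => ?_
  rw [show x - z * y = (-y) * z + x by ring, add_pow, Finset.mul_sum]
  refine Finset.sum_congr rfl fun j _ => ?_
  rw [mul_pow]
  ring

theorem hasDerivAt_mobius (g : GL (Fin 2) ℝ) {z : ℂ} (hz : 0 < z.im) :
    HasDerivAt (fun w => num g w / denom g w) ((g.det.val : ℂ) / (denom g z) ^ 2) z := by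
  have hden : denom g z ≠ 0 := denom_ne_zero_of_im g hz.ne'
  have h1 : HasDerivAt (fun w => num g w) (g 0 0 : ℂ) z := by
    unfold num
    simpa using ((hasDerivAt_id z).const_mul (g 0 0 : ℂ)).add_const (g 0 1 : ℂ)
  have h2 : HasDerivAt (fun w => denom g w) (g 1 0 : ℂ) z := by
    unfold denom
    simpa using ((hasDerivAt_id z).const_mul (g 1 0 : ℂ)).add_const (g 1 1 : ℂ)
  refine (h1.div h2 hden).congr_deriv ?_
  congr 1
  rw [Matrix.GeneralLinearGroup.val_det_apply, Matrix.det_fin_two]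
  simp only [num, denom]
  push_cast
  ring

theorem hasDerivAt_Eint_comp {φ : ℍ → ℂ} (h : HasPrims φ) (m : ℕ) (g : GL (Fin 2) ℝ)
    (hg : 0 < g.det.val) (x y : ℂ) {z : ℂ} (hz : 0 < z.im) :
    HasDerivAt (fun w => Eint φ m (num g w / denom g w) (g 0 0 * x + g 0 1 * y)
        (g 1 0 * x + g 1 1 * y))
      ((φ ∣[((m : ℤ) + 2)] g) (ofComplex z) * (x - z * y) ^ m) z := by
  set τ : ℍ := ⟨z, hz⟩ with hτ
  have hzτ : ofComplex z = τ := UpperHalfPlane.ofComplex_apply_of_im_pos hz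
  have hden : denom g z ≠ 0 := denom_ne_zero_of_im g hz.ne'
  have hcoe : ((g • τ : ℍ) : ℂ) = num g z / denom g z := coe_smul_of_det_pos hg τ
  have him : 0 < (num g z / denom g z).im := hcoe ▸ (g • τ).im_pos
  have h1 := (isPrim_Eint h m (g 0 0 * x + g 0 1 * y) (g 1 0 * x + g 1 1 * y)).deriv _ him
  have h2 := h1.comp z (hasDerivAt_mobius g hz)
  refine h2.congr_deriv ?_
  have hof : ofComplex (num g z / denom g z) = g • τ := by
    rw [← hcoe, UpperHalfPlane.ofComplex_apply]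
  rw [hof, hzτ, ModularForm.slash_apply]
  have hσ : σ g = .refl ℝ ℂ := by rw [UpperHalfPlane.σ, if_pos hg]
  rw [hσ]
  simp only [ContinuousAlgEquiv.refl_apply]
  have hτz : (τ : ℂ) = z := rfl
  rw [hτz]
  have hdetabs : |g.det.val| = g.det.val := abs_of_pos hg
  rw [hdetabs]
  have hlin : (g 0 0 * x + g 0 1 * y : ℂ) - num g z / denom g z * (g 1 0 * x + g 1 1 * y)
      = (g.det.val : ℂ) * (x - z * y) / denom g z := by
    field_simp
    rw [Matrix.GeneralLinearGroup.val_det_apply, Matrix.det_fin_two]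
    simp only [num, denom]
    push_cast
    ring
  rw [hlin]
  have hdet : (g.det.val : ℂ) ≠ 0 := by exact_mod_cast hg.ne'
  rw [show ((m : ℤ) + 2 - 1) = ((m + 1 : ℕ) : ℤ) by push_cast; ring,
    show (-((m : ℤ) + 2)) = -((m + 2 : ℕ) : ℤ) by push_cast; ring, zpow_neg, zpow_natCast,
    zpow_natCast, div_pow, mul_pow]
  field_simp
  ring

/-- `E` as a function on the upper half plane -/
noncomputable def EE (φ : ℍ → ℂ) (m : ℕ) (τ : ℍ) (x y : ℂ) : ℂ := Eint φ m τ x y

theorem EE_smul_sub_const {φ ψ : ℍ → ℂ} (hφ : HasPrims φ) (hψ : HasPrims ψ) (m : ℕ)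
    (g : GL (Fin 2) ℝ) (hg : 0 < g.det.val) (hgs : φ ∣[((m : ℤ) + 2)] g = ψ) (x y : ℂ)
    (τ τ' : ℍ) :
    EE φ m (g • τ) (g 0 0 * x + g 0 1 * y) (g 1 0 * x + g 1 1 * y) - EE ψ m τ x y =
      EE φ m (g • τ') (g 0 0 * x + g 0 1 * y) (g 1 0 * x + g 1 1 * y) - EE ψ m τ' x y := by
  unfold EE
  rw [coe_smul_of_det_pos hg τ, coe_smul_of_det_pos hg τ']
  refine const_of_deriv_zero (G := fun w => Eint φ m (num g w / denom g w)
    (g 0 0 * x + g 0 1 * y) (g 1 0 * x + g 1 1 * y) - Eint ψ m w x y) ?_ τ.im_pos τ'.im_pos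
  intro z hz
  have h1 := hasDerivAt_Eint_comp hφ m g hg x y hz
  have h2 := (isPrim_Eint hψ m x y).deriv z hz
  have h3 := h1.sub h2
  rw [hgs, sub_self] at h3
  exact h3

theorem EE_sum_upper {ι : Type*} (t : Finset ι) {φ ψ : ℍ → ℂ} (hφ : HasPrims φ)
    (hψ : HasPrims ψ) (m : ℕ) (α : ι → GL (Fin 2) ℝ) (hdet : ∀ i ∈ t, 0 < (α i).det.val)
    (h10 : ∀ i ∈ t, (α i) 1 0 = 0) (h00 : ∀ i ∈ t, 0 < (α i) 0 0)
    (hsum : ψ = ∑ i ∈ t, φ ∣[((m : ℤ) + 2)] (α i)) (x y : ℂ) (τ : ℍ) :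
    EE ψ m τ x y = ∑ i ∈ t, EE φ m (α i • τ) (α i 0 0 * x + α i 0 1 * y)
      (α i 1 0 * x + α i 1 1 * y) := by
  have hP : IsPrim (fun w => ∑ i ∈ t, Eint φ m (num (α i) w / denom (α i) w)
      (α i 0 0 * x + α i 0 1 * y) (α i 1 0 * x + α i 1 1 * y))
      (fun z => ∑ i ∈ t, (φ ∣[((m : ℤ) + 2)] (α i)) (ofComplex z) * (x - z * y) ^ m) := by
    refine IsPrim.sum t fun i hi => ⟨fun z hz => hasDerivAt_Eint_comp hφ m (α i) (hdet i hi) x y hz,
      ?_⟩
    have hd : (α i).det.val = (α i) 0 0 * (α i) 1 1 := by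
      rw [Matrix.GeneralLinearGroup.val_det_apply, Matrix.det_fin_two, h10 i hi]; ring
    have h11 : 0 < (α i) 1 1 := by
      have := hdet i hi
      rw [hd] at this
      exact (mul_pos_iff_of_pos_left (h00 i hi)).mp this
    have hfun : (fun w : ℂ => Eint φ m (num (α i) w / denom (α i) w)
        (α i 0 0 * x + α i 0 1 * y) (α i 1 0 * x + α i 1 1 * y)) = fun w =>
        Eint φ m (((α i 0 0 / α i 1 1 : ℝ) : ℂ) * w + ((α i 0 1 / α i 1 1 : ℝ) : ℂ))
        (α i 0 0 * x + α i 0 1 * y) (α i 1 0 * x + α i 1 1 * y) := by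
      ext w
      congr 1
      simp only [num, denom, h10 i hi]
      have : ((α i 1 1 : ℝ) : ℂ) ≠ 0 := by exact_mod_cast h11.ne'
      push_cast
      rw [zero_mul, zero_add]
      field_simp
    rw [hfun]
    exact (isPrim_Eint hφ m _ _).decay.comp_affine (div_pos (h00 i hi) h11)
  have hu := IsPrim.unique (isPrim_Eint hψ m x y) hP (fun z hz => by
    rw [hsum, Finset.sum_apply, Finset.sum_mul]) τ.im_pos
  unfold EE
  rw [hu]
  refine Finset.sum_congr rfl fun i hi => ?_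
  rw [coe_smul_of_det_pos (hdet i hi) τ]

end Fermat.Agent.S22aux
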