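/-
Nondegeneracy: a cusp form on `Γ₀(N)` of weight `m + 2` all of whose Eichler periods vanish is zero.
-/
import Mathlib
import Fermat.Agent.S22.Period
import Fermat.Prelude.Thm_ModularForm_sturm_bound_Gamma0

set_option autoImplicit false

namespace Fermat.Agent.S22aux

open Complex Filter Topology Metric Function UpperHalfPlane CongruenceSubgroup ModularGroup
open scoped MatrixGroups ModularForm Manifold

/-! ### polynomial functions -/

/-- `u` is a polynomial function -/
def IsPolyFun (u : ℂ → ℂ) : Prop := ∃ P : Polynomial ℂ, ∀ x, u x = P.eval x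

namespace IsPolyFun

theorem const (c : ℂ) : IsPolyFun (fun _ => c) := ⟨Polynomial.C c, by simp⟩

theorem id : IsPolyFun (fun x => x) := ⟨Polynomial.X, by simp⟩

theorem add {u v : ℂ → ℂ} (hu : IsPolyFun u) (hv : IsPolyFun v) :
    IsPolyFun (fun x => u x + v x) := by
  obtain ⟨P, hP⟩ := hu
  obtain ⟨Q, hQ⟩ := hv
  exact ⟨P + Q, by simp [hP, hQ]⟩

theorem neg {u : ℂ → ℂ} (hu : IsPolyFun u) : IsPolyFun (fun x => - u x) := by
  obtain ⟨P, hP⟩ := hu
  exact ⟨-P, by simp [hP]⟩

theorem sub {u v : ℂ → ℂ} (hu : IsPolyFun u) (hv : IsPolyFun v) :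
    IsPolyFun (fun x => u x - v x) := by
  obtain ⟨P, hP⟩ := hu
  obtain ⟨Q, hQ⟩ := hv
  exact ⟨P - Q, by simp [hP, hQ]⟩

theorem mul {u v : ℂ → ℂ} (hu : IsPolyFun u) (hv : IsPolyFun v) :
    IsPolyFun (fun x => u x * v x) := by
  obtain ⟨P, hP⟩ := hu
  obtain ⟨Q, hQ⟩ := hv
  exact ⟨P * Q, by simp [hP, hQ]⟩

theorem pow {u : ℂ → ℂ} (hu : IsPolyFun u) (n : ℕ) : IsPolyFun (fun x => u x ^ n) := by
  obtain ⟨P, hP⟩ := hu
  exact ⟨P ^ n, by simp [hP]⟩

theorem sum {ι : Type*} (t : Finset ι) {u : ι → ℂ → ℂ} (hu : ∀ i ∈ t, IsPolyFun (u i)) :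
    IsPolyFun (fun x => ∑ i ∈ t, u i x) := by
  classical
  induction t using Finset.induction_on with
  | empty => simpa using const 0
  | insert i t hi ih =>
    simp only [Finset.sum_insert hi]
    exact (hu i (Finset.mem_insert_self i t)).add
      (ih fun j hj => hu j (Finset.mem_insert_of_mem hj))

theorem eq_zero_of_forall_int {u : ℂ → ℂ} (hu : IsPolyFun u) (h : ∀ n : ℤ, u n = 0) (x : ℂ) :
    u x = 0 := by
  obtain ⟨P, hP⟩ := hu
  have : P = 0 := by
    refine Polynomial.eq_zero_of_infinite_isRoot P ?_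
    refine Set.Infinite.mono ?_ (Set.infinite_range_of_injective (Int.cast_injective (α := ℂ)))
    rintro _ ⟨n, rfl⟩
    have := h n
    rw [hP] at this
    exact this
  rw [hP, this, Polynomial.eval_zero]

/-- a polynomial function which is `c`-periodic along an orbit is constant -/
theorem const_of_periodic {u : ℂ → ℂ} (hu : IsPolyFun u) {c z₀ : ℂ} (hc : c ≠ 0)
    (h : ∀ n : ℕ, u (z₀ + n * c) = u z₀) (x : ℂ) : u x = u z₀ := by
  obtain ⟨P, hP⟩ := hu
  have : P - Polynomial.C (u z₀) = 0 := by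
    refine Polynomial.eq_zero_of_infinite_isRoot _ ?_
    have hinj : Function.Injective (fun n : ℕ => z₀ + n * c) := by
      intro a b hab
      have h1 : (a : ℂ) * c = b * c := add_left_cancel hab
      exact_mod_cast mul_right_cancel₀ hc h1
    refine Set.Infinite.mono ?_ (Set.infinite_range_of_injective hinj)
    rintro _ ⟨n, rfl⟩
    have := h n
    rw [hP] at this
    simp [Polynomial.IsRoot, this]
  have h2 := congrArg (Polynomial.eval x) this
  simp only [Polynomial.eval_sub, Polynomial.eval_C, Polynomial.eval_zero] at h2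
  rw [hP x]
  exact sub_eq_zero.mp h2

end IsPolyFun

theorem isPolyFun_Eint (φ : ℍ → ℂ) (m : ℕ) (z : ℂ) {u v : ℂ → ℂ} (hu : IsPolyFun u)
    (hv : IsPolyFun v) : IsPolyFun (fun t => Eint φ m z (u t) (v t)) := by
  unfold Eint
  refine IsPolyFun.sum _ fun j _ => ?_
  exact (((IsPolyFun.const _).mul (hu.pow _)).mul (hv.neg.pow _)).mul (IsPolyFun.const _)

theorem Eint_homog (φ : ℍ → ℂ) (m : ℕ) (z x y c : ℂ) :
    Eint φ m z (c * x) (c * y) = c ^ m * Eint φ m z x y := by
  unfold Eint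
  rw [Finset.mul_sum]
  refine Finset.sum_congr rfl fun j hj => ?_
  have hj' : j ≤ m := Nat.lt_succ_iff.mp (Finset.mem_range.mp hj)
  rw [mul_pow, show -(c * y) = c * (-y) by ring, mul_pow]
  have : c ^ m = c ^ (m - j) * c ^ j := by rw [← pow_add, Nat.sub_add_cancel hj']
  rw [this]
  ring

/-! ### the diagonal values -/

/-- the diagonal restriction, an `(r+1)`-fold primitive up to `r!` -/
noncomputable def diag (φ : ℍ → ℂ) (r : ℕ) (z : ℂ) : ℂ := Eint φ r z z 1

theorem diag_rapidDecay {φ : ℍ → ℂ} (h : HasPrims φ) (r : ℕ) : RapidDecay (diag φ r) := by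
  have : diag φ r = fun z => ∑ j ∈ Finset.range (r + 1),
      ((r.choose j : ℂ) * (-1) ^ j) * (prim φ j z * z ^ (r - j)) := by
    ext z
    unfold diag Eint
    exact Finset.sum_congr rfl fun j _ => by ring
  rw [this]
  exact RapidDecay.sum _ fun j _ => ((h.isPrim j).decay.mul_pow _).const_mul _

theorem diag_differentiableOn {φ : ℍ → ℂ} (h : HasPrims φ) (r : ℕ) :
    DifferentiableOn ℂ (diag φ r) {z | 0 < z.im} := by
  have : diag φ r = fun z => ∑ j ∈ Finset.range (r + 1),
      ((r.choose j : ℂ) * (-1) ^ j) * (prim φ j z * z ^ (r - j)) := by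
    ext z
    unfold diag Eint
    exact Finset.sum_congr rfl fun j _ => by ring
  rw [this]
  refine DifferentiableOn.fun_sum fun j _ => ?_
  refine DifferentiableOn.const_mul ?_ _
  refine DifferentiableOn.mul (fun z hz => ((h.isPrim j).deriv z hz).differentiableAt.differentiableWithinAt) ?_
  exact (differentiable_pow _).differentiableOn

theorem diag_hasDerivAt_succ {φ : ℍ → ℂ} (h : HasPrims φ) (r : ℕ) {z : ℂ} (hz : 0 < z.im) :
    HasDerivAt (diag φ (r + 1)) ((r + 1 : ℕ) * diag φ r z) z := by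
  have hfun : diag φ (r + 1) = fun z => ∑ j ∈ Finset.range (r + 1 + 1),
      (((r + 1).choose j : ℂ) * (-1) ^ j) * (z ^ (r + 1 - j) * prim φ j z) := by
    ext z
    unfold diag Eint
    exact Finset.sum_congr rfl fun j _ => by ring
  rw [hfun]
  have hd : ∀ j ∈ Finset.range (r + 1 + 1), HasDerivAt
      (fun z => (((r + 1).choose j : ℂ) * (-1) ^ j) * (z ^ (r + 1 - j) * prim φ j z))
      ((((r + 1).choose j : ℂ) * (-1) ^ j) * ((((r + 1 - j : ℕ) : ℂ) * z ^ (r + 1 - j - 1)) *
        prim φ j z + z ^ (r + 1 - j) * (φ (ofComplex z) * z ^ j))) z := fun j _ =>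
    ((hasDerivAt_pow _ z).mul ((h.isPrim j).deriv z hz)).const_mul _
  refine (HasDerivAt.fun_sum hd).congr_deriv ?_
  have hsplit : ∀ j ∈ Finset.range (r + 1 + 1),
      (((r + 1).choose j : ℂ) * (-1) ^ j) * ((((r + 1 - j : ℕ) : ℂ) * z ^ (r + 1 - j - 1)) *
        prim φ j z + z ^ (r + 1 - j) * (φ (ofComplex z) * z ^ j)) =
      (((r + 1).choose j : ℂ) * ((r + 1 - j : ℕ) : ℂ)) * ((-1) ^ j * z ^ (r + 1 - j - 1) *
        prim φ j z) + ((-1) ^ j * 1 ^ (r + 1 - j) * ((r + 1).choose j : ℂ)) *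
          (z ^ (r + 1) * φ (ofComplex z)) := by
    intro j hj
    have hj' : j ≤ r + 1 := Nat.lt_succ_iff.mp (Finset.mem_range.mp hj)
    have : z ^ (r + 1) = z ^ (r + 1 - j) * z ^ j := by rw [← pow_add, Nat.sub_add_cancel hj']
    rw [this, one_pow]
    ring
  rw [Finset.sum_congr rfl hsplit, Finset.sum_add_distrib, ← Finset.sum_mul, ← add_pow]
  simp only [neg_add_cancel, ne_eq, Nat.add_eq_zero_iff, one_ne_zero, and_false,
    not_false_eq_true, zero_pow, zero_mul, add_zero]
  rw [Finset.sum_range_succ]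
  simp only [Nat.sub_self, Nat.cast_zero, mul_zero, zero_mul, add_zero]
  unfold diag Eint
  rw [Finset.mul_sum]
  refine Finset.sum_congr rfl fun j hj => ?_
  have hj' : j ≤ r := Nat.lt_succ_iff.mp (Finset.mem_range.mp hj)
  have hc : (((r + 1).choose j : ℂ) * ((r + 1 - j : ℕ) : ℂ)) = ((r + 1 : ℕ) : ℂ) * (r.choose j : ℂ) := by
    have := Nat.choose_mul_succ_eq r j
    have h2 : (r + 1).choose j * (r + 1 - j) = (r + 1) * r.choose j := by rw [← this]; ring
    exact_mod_cast h2
  rw [hc, show r + 1 - j - 1 = r - j by omega]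
  ring

theorem eq_zero_of_diag_eq_zero {φ : ℍ → ℂ} (h : HasPrims φ) (r : ℕ)
    (hr : ∀ z : ℂ, 0 < z.im → diag φ r z = 0) : φ = 0 := by
  induction r with
  | zero =>
    ext τ
    have h1 : HasDerivAt (diag φ 0) (φ τ) (τ : ℂ) := by
      have := (h.isPrim 0).deriv τ τ.im_pos
      have h2 : diag φ 0 = prim φ 0 := by
        ext z; simp [diag, Eint]
      rw [h2]
      simpa using this
    have h2 : HasDerivAt (diag φ 0) 0 (τ : ℂ) := by
      refine (hasDerivAt_const (τ : ℂ) (0 : ℂ)).congr_of_eventuallyEq ?_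
      filter_upwards [isOpen_uhp.mem_nhds τ.im_pos] with z hz using hr z hz
    simpa using h1.unique h2
  | succ r ih =>
    refine ih fun z hz => ?_
    have h1 := diag_hasDerivAt_succ h r hz
    have h2 : HasDerivAt (diag φ (r + 1)) 0 z := by
      refine (hasDerivAt_const z (0 : ℂ)).congr_of_eventuallyEq ?_
      filter_upwards [isOpen_uhp.mem_nhds hz] with z hz using hr z hz
    have h3 := h1.unique h2
    rcases mul_eq_zero.mp h3 with h4 | h4
    · exact absurd h4 (by exact_mod_cast Nat.succ_ne_zero r)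
    · exact h4

end Fermat.Agent.S22aux
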