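/-
Nondegeneracy: a cusp form on `Γ₀(N)` of weight `m + 2` all of whose Eichler periods vanish is zero.
-/
import Mathlib
import Fermat.Agent.S22.Nondeg

set_option autoImplicit false

namespace Fermat.Agent.S22aux

open Complex Filter Topology Metric Function UpperHalfPlane CongruenceSubgroup ModularGroup
open scoped MatrixGroups ModularForm Manifold

variable {N : ℕ}

theorem conj_T_zpow_mem_Gamma0 (N : ℕ) (g : SL(2, ℤ)) : g * T ^ (N : ℤ) * g⁻¹ ∈ Gamma0 N := by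
  have h1 : T ^ (N : ℤ) ∈ CongruenceSubgroup.Gamma N := ModularGroup_T_pow_mem_Gamma N N dvd_rfl
  have h2 : g * T ^ (N : ℤ) * g⁻¹ ∈ CongruenceSubgroup.Gamma N := (Gamma_normal N).conj_mem _ h1 g
  rw [Gamma0_mem]
  exact (Gamma_mem.mp h2).2.2.1

theorem slash_Gamma0 {k : ℤ} (f : CuspForm (Gamma0 N) k) {g : SL(2, ℤ)} (hg : g ∈ Gamma0 N) :
    (⇑f ∣[k] g : ℍ → ℂ) = ⇑f :=
  SlashInvariantFormClass.slash_action_eq f _ (Subgroup.mem_map_of_mem _ hg)

theorem slash_slash_T {k : ℤ} (f : CuspForm (Gamma0 N) k) (g : SL(2, ℤ)) :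
    ((⇑f ∣[k] g) ∣[k] (T ^ (N : ℤ)) : ℍ → ℂ) = ⇑f ∣[k] g := by
  rw [← SlashAction.slash_mul, show g * T ^ (N : ℤ) = (g * T ^ (N : ℤ) * g⁻¹) * g by group,
    SlashAction.slash_mul, slash_Gamma0 f (conj_T_zpow_mem_Gamma0 N g)]

theorem denom_T_zpow (n : ℤ) (τ : ℂ) : denom ((T ^ n : SL(2, ℤ)) : GL (Fin 2) ℝ) τ = 1 := by
  simp [denom, ModularGroup.coe_T_zpow, -map_zpow]

theorem num_T_zpow (n : ℤ) (τ : ℂ) : num ((T ^ n : SL(2, ℤ)) : GL (Fin 2) ℝ) τ = τ + n := by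
  simp [num, ModularGroup.coe_T_zpow, -map_zpow]

theorem T_zpow_entries (n : ℤ) : (((T ^ n : SL(2, ℤ)) : GL (Fin 2) ℝ)) 0 0 = 1 ∧
    (((T ^ n : SL(2, ℤ)) : GL (Fin 2) ℝ)) 0 1 = n ∧
    (((T ^ n : SL(2, ℤ)) : GL (Fin 2) ℝ)) 1 0 = 0 ∧
    (((T ^ n : SL(2, ℤ)) : GL (Fin 2) ℝ)) 1 1 = 1 := by
  refine ⟨?_, ?_, ?_, ?_⟩ <;> simp [ModularGroup.coe_T_zpow, -map_zpow]

theorem slash_T_zpow_apply {k : ℤ} (φ : ℍ → ℂ) (n : ℤ) (τ : ℍ) :
    (φ ∣[k] (T ^ n : SL(2, ℤ))) τ = φ ((T ^ n : SL(2, ℤ)) • τ) := by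
  rw [ModularForm.SL_slash_apply, denom_T_zpow, one_zpow, mul_one]

theorem periodic_of_slash_T {k : ℤ} {φ : ℍ → ℂ} (h : (φ ∣[k] (T ^ (N : ℤ)) : ℍ → ℂ) = φ) :
    Periodic (φ ∘ ofComplex) (N : ℝ) := by
  intro w
  by_cases hw : 0 < w.im
  · have hw' : 0 < (w + ((N : ℝ) : ℂ)).im := by simpa using hw
    simp only [comp_apply, ofComplex_apply_of_im_pos hw', ofComplex_apply_of_im_pos hw]
    have h1 := congrFun h ⟨w, hw⟩
    rw [slash_T_zpow_apply] at h1
    rw [← h1]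
    congr 1
    ext
    rw [ModularGroup.coe_T_zpow_smul_eq]
    simp
  · have hw' : (w + ((N : ℝ) : ℂ)).im ≤ 0 := by simpa using hw
    simp only [comp_apply, ofComplex_apply_of_im_nonpos hw',
      ofComplex_apply_of_im_nonpos (not_lt.mp hw)]

theorem hasPrims_slash [NeZero N] {k : ℤ} (f : CuspForm (Gamma0 N) k) (g : SL(2, ℤ)) :
    HasPrims (⇑f ∣[k] g) := by
  have hN : (0 : ℝ) < (N : ℝ) := by exact_mod_cast Nat.pos_of_ne_zero (NeZero.ne N)
  refine HasPrims.of_cuspLike hN ?_ (periodic_of_slash_T (slash_slash_T f g))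
    (CuspFormClass.zero_at_infty_slash f g)
  exact (CuspFormClass.holo f).slash k _

theorem hasPrims [NeZero N] {k : ℤ} (f : CuspForm (Gamma0 N) k) : HasPrims (⇑f) := by
  have := hasPrims_slash f 1
  rwa [SlashAction.slash_one] at this

section

variable [NeZero N] {m : ℕ} (f : CuspForm (Gamma0 N) ((m : ℤ) + 2))

theorem det_pos_SL (g : SL(2, ℤ)) : 0 < ((g : GL (Fin 2) ℝ)).det.val := by
  simp

/-- the Eichler period of `f` at `g ∈ SL₂(ℤ)` -/
noncomputable def period (f : CuspForm (Gamma0 N) ((m : ℤ) + 2)) (g : SL(2, ℤ)) (x y : ℂ) : ℂ :=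
  EE f m (g • UpperHalfPlane.I) (g 0 0 * x + g 0 1 * y) (g 1 0 * x + g 1 1 * y) -
    EE (⇑f ∣[((m : ℤ) + 2)] g) m UpperHalfPlane.I x y

theorem EE_smul_eq (g : SL(2, ℤ)) (x y : ℂ) (τ : ℍ) :
    EE f m (g • τ) (g 0 0 * x + g 0 1 * y) (g 1 0 * x + g 1 1 * y) =
      EE (⇑f ∣[((m : ℤ) + 2)] g) m τ x y + period f g x y := by
  have := EE_smul_sub_const (hasPrims f) (hasPrims_slash f g) m (g : GL (Fin 2) ℝ) (det_pos_SL g)
    rfl x y τ UpperHalfPlane.I
  rw [← sub_eq_iff_eq_add']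
  unfold period
  simpa using this

/-- the diagonal function of `f` as a function on `ℍ` -/
noncomputable def FF (f : CuspForm (Gamma0 N) ((m : ℤ) + 2)) : ℍ → ℂ := fun τ => diag f m τ

theorem num_SL (g : SL(2, ℤ)) (τ : ℂ) : num (g : GL (Fin 2) ℝ) τ = g 0 0 * τ + g 0 1 := by
  simp [num]

theorem denom_SL (g : SL(2, ℤ)) (τ : ℂ) : denom (g : GL (Fin 2) ℝ) τ = g 1 0 * τ + g 1 1 := by
  simp [denom]

theorem FF_slash (g : SL(2, ℤ)) (τ : ℍ) :
    (FF f ∣[(-(m : ℤ))] g) τ = diag (⇑f ∣[((m : ℤ) + 2)] g) m τ + period f g τ 1 := by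
  have h1 := EE_smul_eq f g τ 1 τ
  rw [ModularForm.SL_slash_apply, neg_neg, zpow_natCast]
  have hden : denom (g : GL (Fin 2) ℝ) (τ : ℂ) ≠ 0 := denom_ne_zero _ τ
  have hcoe : ((g • τ : ℍ) : ℂ) = num (g : GL (Fin 2) ℝ) τ / denom (g : GL (Fin 2) ℝ) τ :=
    coe_smul_of_det_pos (det_pos_SL g) τ
  have h2 : EE f m (g • τ) (g 0 0 * τ + g 0 1 * 1) (g 1 0 * τ + g 1 1 * 1) =
      denom (g : GL (Fin 2) ℝ) τ ^ m * FF f (g • τ) := by
    unfold FF diag EE
    rw [← Eint_homog]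
    congr 1
    · rw [hcoe, mul_div_cancel₀ _ hden, num_SL, mul_one]
    · rw [mul_one, mul_one, denom_SL]
  rw [h2] at h1
  rw [mul_comm, h1]
  rfl


omit [NeZero N] in
theorem isPolyFun_period {u v : ℂ → ℂ} (g : SL(2, ℤ)) (hu : IsPolyFun u) (hv : IsPolyFun v) :
    IsPolyFun (fun t => period f g (u t) (v t)) := by
  unfold period EE
  refine IsPolyFun.sub ?_ ?_
  · exact isPolyFun_Eint _ _ _ (((IsPolyFun.const _).mul hu).add ((IsPolyFun.const _).mul hv))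
      (((IsPolyFun.const _).mul hu).add ((IsPolyFun.const _).mul hv))
  · exact isPolyFun_Eint _ _ _ hu hv

omit [NeZero N] in
theorem period_eq_zero_of_int {g : SL(2, ℤ)} (h : ∀ x y : ℤ, period f g x y = 0) (x y : ℂ) :
    period f g x y = 0 := by
  have h1 : ∀ (x : ℂ) (y : ℤ), period f g x y = 0 := fun x y =>
    (isPolyFun_period f g IsPolyFun.id (IsPolyFun.const (y : ℂ))).eq_zero_of_forall_int
      (fun n => h n y) x
  exact (isPolyFun_period f g (IsPolyFun.const x) IsPolyFun.id).eq_zero_of_forall_int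
      (fun n => h1 x n) y

/-- `diag` of `f ∣ g` is `N`-periodic -/
theorem diag_slash_T (g : SL(2, ℤ)) (τ : ℍ) :
    diag (⇑f ∣[((m : ℤ) + 2)] g) m ((T ^ (N : ℤ) • τ : ℍ) : ℂ) =
      diag (⇑f ∣[((m : ℤ) + 2)] g) m τ := by
  set φ : ℍ → ℂ := ⇑f ∣[((m : ℤ) + 2)] g with hφ
  have hP : HasPrims φ := hasPrims_slash f g
  have hs : φ ∣[((m : ℤ) + 2)] ((T ^ (N : ℤ) : SL(2, ℤ)) : GL (Fin 2) ℝ) = φ := slash_slash_T f g
  obtain ⟨h00, h01, h10, h11⟩ := T_zpow_entries (N : ℤ)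
  have := EE_sum_upper (Finset.univ : Finset Unit) hP hP m
    (fun _ => ((T ^ (N : ℤ) : SL(2, ℤ)) : GL (Fin 2) ℝ)) (fun _ _ => det_pos_SL _)
    (fun _ _ => h10) (fun _ _ => by rw [h00]; exact one_pos)
    (by rw [Finset.univ_unique, Finset.sum_singleton]; exact hs.symm) τ 1 τ
  simp only [Finset.univ_unique, Finset.sum_singleton, h00, h01, h10, h11] at this
  unfold EE at this
  unfold diag
  have hc : (((T ^ (N : ℤ) : SL(2, ℤ)) • τ : ℍ) : ℂ) = τ + N := by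
    rw [ModularGroup.coe_T_zpow_smul_eq]; simp
  rw [hc, this]
  congr 1
  · change (((T ^ (N : ℤ) : SL(2, ℤ)) • τ : ℍ) : ℂ) = _ at hc
    exact hc.symm
  · push_cast; ring
  · push_cast; ring

theorem diag_slash_T_nsmul (g : SL(2, ℤ)) (n : ℤ) (τ : ℍ) :
    diag (⇑f ∣[((m : ℤ) + 2)] g) m (((T ^ (N : ℤ)) ^ n • τ : ℍ) : ℂ) =
      diag (⇑f ∣[((m : ℤ) + 2)] g) m τ := by
  induction n using Int.induction_on generalizing τ with
  | zero => simp
  | succ i ih =>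
    rw [zpow_add_one, mul_smul, ih, diag_slash_T]
  | pred i ih =>
    rw [zpow_sub_one, mul_smul, ih]
    have := diag_slash_T f g ((T ^ (N : ℤ))⁻¹ • τ)
    rw [smul_inv_smul] at this
    exact this.symm

theorem diag_slash_bounded (g : SL(2, ℤ)) :
    ∀ ε : ℝ, 0 < ε → ∃ A : ℝ, ∀ τ : ℍ, A ≤ τ.im →
      ‖diag (⇑f ∣[((m : ℤ) + 2)] g) m τ‖ ≤ ε := by
  intro ε hε
  have hN : (0 : ℝ) < (N : ℝ) := by exact_mod_cast Nat.pos_of_ne_zero (NeZero.ne N)
  have hlim := (diag_rapidDecay (hasPrims_slash f g) m).tendsto_zero N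
  have hev : ∀ᶠ z in stripFilter (N : ℝ), ‖diag (⇑f ∣[((m : ℤ) + 2)] g) m z‖ ≤ ε := by
    have := hlim.norm
    rw [norm_zero] at this
    exact (this.eventually (gt_mem_nhds hε)).mono fun z hz => le_of_lt hz
  unfold stripFilter at hev
  rw [eventually_inf_principal, eventually_comap] at hev
  obtain ⟨A, hA⟩ := eventually_atTop.mp hev
  refine ⟨A, fun τ hτ => ?_⟩
  set n : ℤ := -⌊τ.re / N⌋ with hn
  rw [← diag_slash_T_nsmul f g n τ]
  have him : (((T ^ (N : ℤ)) ^ n • τ : ℍ)).im = τ.im := by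
    rw [← zpow_mul, ModularGroup.im_T_zpow_smul]
  have hre : (((T ^ (N : ℤ)) ^ n • τ : ℍ)).re = τ.re + N * n := by
    rw [← zpow_mul, ModularGroup.re_T_zpow_smul]; push_cast; ring
  refine hA _ hτ (((T ^ (N : ℤ)) ^ n • τ : ℍ) : ℂ) ?_ ?_
  · rw [UpperHalfPlane.coe_im]; exact him
  · change |((((T ^ (N : ℤ)) ^ n • τ : ℍ) : ℂ)).re| ≤ (N : ℝ)
    rw [UpperHalfPlane.coe_re, hre, hn]
    push_cast
    have h1 := Int.floor_le (τ.re / N)
    have h2 := Int.lt_floor_add_one (τ.re / N)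
    have h3 : (⌊τ.re / N⌋ : ℝ) * N ≤ τ.re := by rwa [← le_div_iff₀ hN]
    have h4 : τ.re < (⌊τ.re / N⌋ + 1 : ℝ) * N := by rwa [← div_lt_iff₀ hN]
    rw [abs_le]
    constructor <;> nlinarith

/-- All periods of `f` on `Γ₀(N)` vanish. -/
def PeriodsVanish (f : CuspForm (Gamma0 N) ((m : ℤ) + 2)) : Prop :=
  ∀ g : SL(2, ℤ), g ∈ Gamma0 N → ∀ x y : ℤ, period f g x y = 0

theorem FF_slash_of_mem (h : PeriodsVanish f) {g : SL(2, ℤ)} (hg : g ∈ Gamma0 N) :
    (FF f ∣[(-(m : ℤ))] g) = FF f := by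
  ext τ
  rw [FF_slash, period_eq_zero_of_int f (h g hg), add_zero, slash_Gamma0 f hg]
  rfl

theorem period_const (h : PeriodsVanish f) (g : SL(2, ℤ)) (z : ℂ) :
    period f g z 1 = period f g UpperHalfPlane.I 1 := by
  have hN : ((N : ℝ) : ℂ) ≠ 0 := by exact_mod_cast NeZero.ne N
  refine (isPolyFun_period f g IsPolyFun.id (IsPolyFun.const 1)).const_of_periodic hN
    (z₀ := UpperHalfPlane.I) ?_ z
  -- one step
  have hstep : ∀ τ : ℍ, period f g ((T ^ (N : ℤ) • τ : ℍ) : ℂ) 1 = period f g τ 1 := by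
    intro τ
    have h1 := FF_slash f g τ
    have h2 := FF_slash f g (T ^ (N : ℤ) • τ)
    rw [diag_slash_T] at h2
    have h3 : (FF f ∣[(-(m : ℤ))] g) (T ^ (N : ℤ) • τ) = (FF f ∣[(-(m : ℤ))] g) τ := by
      rw [← slash_T_zpow_apply (k := -(m : ℤ)) (FF f ∣[(-(m : ℤ))] g) (N : ℤ) τ,
        ← SlashAction.slash_mul,
        show g * T ^ (N : ℤ) = (g * T ^ (N : ℤ) * g⁻¹) * g by group,
        SlashAction.slash_mul, FF_slash_of_mem f h (conj_T_zpow_mem_Gamma0 N g)]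
    rw [h1, h2] at h3
    exact add_left_cancel h3
  intro n
  induction n with
  | zero => simp
  | succ n ih =>
    have him : 0 < ((UpperHalfPlane.I : ℂ) + n * ((N : ℝ) : ℂ)).im := by
      simp
    have := hstep ⟨_, him⟩
    rw [ModularGroup.coe_T_zpow_smul_eq] at this
    simp only [] at this
    rw [← ih, ← this]
    congr 1
    push_cast
    ring

theorem FF_slash_bounded (h : PeriodsVanish f) (g : SL(2, ℤ)) :
    IsBoundedAtImInfty (FF f ∣[(-(m : ℤ))] g) := by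
  rw [isBoundedAtImInfty_iff]
  obtain ⟨A, hA⟩ := diag_slash_bounded f g 1 one_pos
  refine ⟨1 + ‖period f g UpperHalfPlane.I 1‖, A, fun τ hτ => ?_⟩
  rw [FF_slash, period_const f h g τ]
  exact (norm_add_le _ _).trans (add_le_add (hA τ hτ) le_rfl)

theorem mdiff_FF : MDiff (FF f) := by
  rw [UpperHalfPlane.mdifferentiable_iff]
  refine (diag_differentiableOn (hasPrims f) m).congr fun z hz => ?_
  simp only [comp_apply, FF]
  rw [ofComplex_apply_of_im_pos hz]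

/-- `FF f` as a modular form of weight `-m`. -/
noncomputable def FFform (h : PeriodsVanish f) : ModularForm (Gamma0 N) (-(m : ℤ)) where
  toFun := FF f
  slash_action_eq' := by
    rintro _ ⟨g, hg, rfl⟩
    exact FF_slash_of_mem f h hg
  holo' := mdiff_FF f
  bdd_at_cusps' := by
    intro c hc
    rw [Subgroup.IsArithmetic.isCusp_iff_isCusp_SL2Z] at hc
    rw [OnePoint.isBoundedAt_iff_forall_SL2Z hc]
    intro g _
    exact FF_slash_bounded f h g

theorem eq_zero_of_periodsVanish (h : PeriodsVanish f) : f = 0 := by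
  have h0 : FFform f h = 0 := by
    refine ModularForm.sturm_bound_Gamma0 N _ fun n hn => ?_
    have hz : (-(m : ℤ) * (Gamma0 N).index).toNat = 0 := by
      rw [Int.toNat_eq_zero]
      have : (0 : ℤ) ≤ (m : ℤ) * (Gamma0 N).index := by positivity
      linarith [this, neg_mul (m : ℤ) ((Gamma0 N).index : ℤ)]
    rw [hz] at hn
    have hn0 : n = 0 := by omega
    subst hn0
    have h1 : (1 : ℝ) ∈ ((Gamma0 N : Subgroup (GL (Fin 2) ℝ))).strictPeriods := by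
      simp [strictPeriods_Gamma0]
    have hzero : IsZeroAtImInfty (FFform f h) := by
      rw [isZeroAtImInfty_iff]
      intro ε hε
      obtain ⟨A, hA⟩ := diag_slash_bounded f 1 ε hε
      refine ⟨A, fun τ hτ => ?_⟩
      have := hA τ hτ
      rw [SlashAction.slash_one] at this
      exact this
    have hper := SlashInvariantFormClass.periodic_comp_ofComplex (FFform f h) h1
    rw [qExpansion_coeff, Nat.factorial_zero, iteratedDeriv_zero,
      hzero.cuspFunction_apply_zero one_pos, mul_zero]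
  have h1 : ∀ z : ℂ, 0 < z.im → diag f m z = 0 := by
    intro z hz
    have := DFunLike.congr_fun h0 (⟨z, hz⟩ : ℍ)
    exact this
  have h2 := eq_zero_of_diag_eq_zero (hasPrims f) m h1
  exact DFunLike.coe_injective h2

end

end Fermat.Agent.S22aux
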