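import Mathlib
import Fermat.Prelude.Def_CuspForm_HeckeAlgebra
import Fermat.Prelude.Def_CuspForm_IntegralStructure
import Fermat.Prelude.Thm_CuspForm_intLattice_fg
import Fermat.Prelude.Thm_CuspForm_mem_intLattice_of_mem_heckeAlgebra

/-!
Reduction of S22 to the integral structure on cusp forms of every weight; the case of nonpositive
weight.
-/

set_option autoImplicit false

namespace Fermat.Agent.S22alg

open UpperHalfPlane CongruenceSubgroup

/-- Cusp forms of nonpositive weight for `Γ₀(N)` vanish. -/
theorem cuspForm_eq_zero_of_nonpos {N : ℕ} [NeZero N] {k : ℤ} (hk : k ≤ 0)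
    (f : CuspForm (Gamma0 N) k) : f = 0 := by
  rcases hk.lt_or_eq with hk | rfl
  · have h1 : (CuspForm.toModularFormₗ f : ModularForm (Gamma0 N) k) = 0 :=
      ModularForm.isZero_of_neg_weight hk _
    exact CuspForm.toModularFormₗ_injective (by rw [h1, map_zero])
  · obtain ⟨c, hc⟩ := ModularForm.eq_const_of_weight_zero (CuspForm.toModularFormₗ f)
    have hc' : (f : ℍ → ℂ) = Function.const ℍ c := hc
    have h0 : IsZeroAtImInfty (f : ℍ → ℂ) := by
      have : Fact (IsCusp OnePoint.infty
        ((Gamma0 N : Subgroup (Matrix.SpecialLinearGroup (Fin 2) ℤ)) : Subgroup (GL (Fin 2) ℝ))) := inferInstance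
      exact CuspFormClass.zero_at_infty f
    rw [hc'] at h0
    have h1 : Filter.Tendsto (fun _ : ℍ => c) atImInfty (nhds 0) := h0
    have h2 : c = 0 := tendsto_nhds_unique tendsto_const_nhds h1
    ext τ
    rw [hc', h2]
    rfl

/-- Finiteness of the Hecke algebra in nonpositive weight. -/
theorem finite_heckeAlgebra_of_nonpos (N : ℕ) [NeZero N] {k : ℤ} (hk : k ≤ 0) (S : Set ℕ) :
    Module.Finite ℤ (CuspForm.heckeAlgebra N k S) := by
  have hsub : Subsingleton (CuspForm (Gamma0 N) k) :=
    ⟨fun f g => by rw [cuspForm_eq_zero_of_nonpos hk f, cuspForm_eq_zero_of_nonpos hk g]⟩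
  have : Subsingleton (CuspForm.heckeAlgebra N k S) := ⟨fun a b => by
    apply Subtype.ext
    ext f : 1
    exact Subsingleton.elim _ _⟩
  infer_instance

/-- The integral structure on cusp forms implies finiteness of the Hecke algebra. -/
theorem finite_heckeAlgebra_of_hasIntegralStructure (N : ℕ) [NeZero N] (k : ℤ) (S : Set ℕ)
    (h : CuspForm.HasIntegralStructure N k) :
    Module.Finite ℤ (CuspForm.heckeAlgebra N k S) := by
  rcases le_or_gt k 0 with hk | hk
  · exact finite_heckeAlgebra_of_nonpos N hk S
  obtain ⟨s, hs⟩ := CuspForm.intLattice_fg N k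
  have : Module.Finite ℤ (CuspForm.intLattice N k) := Module.Finite.iff_fg.mpr ⟨s, hs⟩
  have hmem : ∀ l ∈ s, l ∈ CuspForm.intLattice N k := fun l hl => hs ▸ Submodule.subset_span hl
  let Φ : (CuspForm.heckeAlgebra N k S) →ₗ[ℤ] (s → CuspForm.intLattice N k) :=
    { toFun := fun T l => ⟨(T : Module.End ℂ _) l,
        CuspForm.mem_intLattice_of_mem_heckeAlgebra (by lia) T.2 (hmem l l.2)⟩
      map_add' := by
        intro x y
        ext l : 2
        simp
      map_smul' := by
        intro r x
        ext l : 2
        simp }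
  refine Module.Finite.of_injective Φ ?_
  rw [← LinearMap.ker_eq_bot, LinearMap.ker_eq_bot']
  intro T hT
  apply Subtype.ext
  have h1 : ∀ l ∈ CuspForm.intLattice N k, (T : Module.End ℂ (CuspForm (Gamma0 N) k)) l = 0 := by
    intro l hl
    rw [← hs] at hl
    induction hl using Submodule.span_induction with
    | mem x hx =>
      have h1 := congrFun hT ⟨x, hx⟩
      have h2 := congrArg (fun z : CuspForm.intLattice N k => (z : CuspForm (Gamma0 N) k)) h1
      simpa [Φ] using h2
    | zero => simp
    | add x y _ _ hx hy => simp [hx, hy]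
    | smul a x _ hx => simp [hx]
  have h2 : ∀ f : CuspForm (Gamma0 N) k,
      (T : Module.End ℂ (CuspForm (Gamma0 N) k)) f = 0 := by
    intro f
    have hf : f ∈ Submodule.span ℂ
        ((CuspForm.intLattice N k : Submodule ℤ (CuspForm (Gamma0 N) k)) :
          Set (CuspForm (Gamma0 N) k)) := by
      rw [show Submodule.span ℂ ((CuspForm.intLattice N k : Submodule ℤ (CuspForm (Gamma0 N) k)) :
          Set (CuspForm (Gamma0 N) k)) = ⊤ from h]
      trivial
    induction hf using Submodule.span_induction with
    | mem x hx => exact h1 x hx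
    | zero => simp
    | add x y _ _ hx hy => simp [hx, hy]
    | smul a x _ hx => simp [hx]
  ext f : 1
  rw [h2 f]
  rfl

end Fermat.Agent.S22alg
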