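import Mathlib
import Fermat.Prelude.Def_CuspForm_HeckeAlgebra

/-!
Pure algebra part of S22: a Hecke-stable, finitely generated, separating lattice of functionals
makes the Hecke algebra finite; finite generation of `Γ₀(N)`; lattices of cocycle values.
-/

set_option autoImplicit false

namespace Fermat.Agent.S22alg

section StableLattice

variable {V : Type*} [AddCommGroup V] [Module ℂ V]

/-- If `L` is a lattice of functionals stable under precomposition with the generators,
then it is stable under the whole adjoined algebra. -/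
theorem comp_mem_of_mem_adjoin (G : Set (Module.End ℂ V)) (L : Submodule ℤ (Module.Dual ℂ V))
    (hstab : ∀ T ∈ G, ∀ l ∈ L, l.comp T ∈ L) {T : Module.End ℂ V}
    (hT : T ∈ Algebra.adjoin ℤ G) : ∀ l ∈ L, l.comp T ∈ L := by
  induction hT using Algebra.adjoin_induction with
  | mem x hx => exact hstab x hx
  | algebraMap r =>
    intro l hl
    have : l.comp ((algebraMap ℤ (Module.End ℂ V)) r) = r • l := by
      ext v
      simp
    rw [this]
    exact L.smul_mem r hl
  | add x y _ _ hx hy =>
    intro l hl
    rw [LinearMap.comp_add]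
    exact L.add_mem (hx l hl) (hy l hl)
  | mul x y _ _ hx hy =>
    intro l hl
    have : l.comp (x * y) = (l.comp x).comp y := rfl
    rw [this]
    exact hy _ (hx l hl)

/-- A finitely generated, stable and separating lattice of functionals makes the algebra
generated by `G` a finite `ℤ`-module. -/
theorem finite_of_stable_lattice (G : Set (Module.End ℂ V)) (L : Submodule ℤ (Module.Dual ℂ V))
    (hL : L.FG) (hstab : ∀ T ∈ G, ∀ l ∈ L, l.comp T ∈ L)
    (hsep : ∀ v : V, (∀ l ∈ L, l v = 0) → v = 0) :
    Module.Finite ℤ (Algebra.adjoin ℤ G) := by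
  obtain ⟨s, hs⟩ := hL
  have : Module.Finite ℤ L := Module.Finite.iff_fg.mpr ⟨s, hs⟩
  have hmem : ∀ l ∈ s, l ∈ L := fun l hl => hs ▸ Submodule.subset_span hl
  let Φ : (Algebra.adjoin ℤ G) →ₗ[ℤ] (s → L) :=
    { toFun := fun T l => ⟨(l : Module.Dual ℂ V).comp (T : Module.End ℂ V),
        comp_mem_of_mem_adjoin G L hstab T.2 l (hmem l l.2)⟩
      map_add' := by
        intro x y
        ext l v
        simp
      map_smul' := by
        intro r x
        ext l v
        simp }
  refine Module.Finite.of_injective Φ ?_
  rw [← LinearMap.ker_eq_bot, LinearMap.ker_eq_bot']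
  intro T hT
  apply Subtype.ext
  ext v
  apply hsep
  intro l hl
  rw [← hs] at hl
  induction hl using Submodule.span_induction with
  | mem x hx =>
    have h1 := congrFun hT ⟨x, hx⟩
    have h2 := congrArg (fun z : L => (z : Module.Dual ℂ V) v) h1
    simpa [Φ] using h2
  | zero => simp
  | add x y _ _ hx hy => simp [hx, hy]
  | smul a x _ hx => simp [hx]

end StableLattice

section Gamma0FG

open CongruenceSubgroup

instance fg_SL2Z : Group.FG (Matrix.SpecialLinearGroup (Fin 2) ℤ) := by
  refine Group.fg_iff.mpr ⟨{ModularGroup.S, ModularGroup.T}, ?_, Set.toFinite _⟩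
  exact _root_.SpecialLinearGroup.SL2Z_generators.symm ▸ rfl

theorem fg_Gamma0 (N : ℕ) [NeZero N] : Group.FG (Gamma0 N) :=
  Subgroup.fg_of_index_ne_zero (Gamma0 N)

end Gamma0FG

section Cocycle

/-- If `P` satisfies the cocycle relation for an action of a finitely generated group, and for each
`g` the values `P g v` lie in a finitely generated `ℤ`-submodule, then all the values lie in a
single finitely generated `ℤ`-submodule. -/
theorem cocycle_fg {Γ : Type*} [Group Γ] [Group.FG Γ] {X : Type*} [MulAction Γ X]
    {D : Type*} [AddCommGroup D] (P : Γ → X → D)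
    (hP : ∀ g h v, P (g * h) v = P g (h • v) + P h v)
    (hfin : ∀ g, ∃ M : Submodule ℤ D, M.FG ∧ ∀ v, P g v ∈ M) :
    (Submodule.span ℤ {d | ∃ g v, d = P g v}).FG := by
  obtain ⟨S, hS, hSfin⟩ := Group.fg_iff.mp (inferInstance : Group.FG Γ)
  choose M hMfg hM using hfin
  -- `M'` contains all values
  let M' : Submodule ℤ D := ⨆ g ∈ S, M g
  have hM'fg : M'.FG := by
    have : M' = ⨆ g ∈ hSfin.toFinset, M g := by simp [M']
    rw [this]
    exact Submodule.fg_biSup _ _ fun g _ => hMfg g
  have h1 : ∀ v, P 1 v = 0 := by
    intro v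
    have := hP 1 1 v
    simpa using this
  have key : ∀ g, ∀ v, P g v ∈ M' := by
    intro g
    have hg : g ∈ Subgroup.closure S := by rw [hS]; trivial
    induction hg using Subgroup.closure_induction with
    | mem x hx =>
      intro v
      exact (le_iSup₂_of_le x hx le_rfl : M x ≤ M') (hM x v)
    | one => intro v; rw [h1]; exact M'.zero_mem
    | mul x y _ _ hx hy => intro v; rw [hP]; exact M'.add_mem (hx _) (hy _)
    | inv x _ hx =>
      intro v
      have h2 := hP x x⁻¹ v
      rw [mul_inv_cancel, h1] at h2
      have h3 : P x⁻¹ v = - P x (x⁻¹ • v) := by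
        rw [eq_neg_iff_add_eq_zero, add_comm]; exact h2.symm
      rw [h3]
      exact M'.neg_mem (hx _)
  have : Module.Finite ℤ M' := Module.Finite.iff_fg.mpr hM'fg
  have : IsNoetherian ℤ M' := inferInstance
  have hle : Submodule.span ℤ {d | ∃ g v, d = P g v} ≤ M' := by
    rw [Submodule.span_le]
    rintro d ⟨g, v, rfl⟩
    exact key g v
  exact (isNoetherian_submodule.mp (inferInstance : IsNoetherian ℤ M')) _ hle

end Cocycle

end Fermat.Agent.S22alg
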