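import Mathlib
import Fermat.Prelude.Def_CuspForm_HeckeAlgebra
import Fermat.Prelude.Sol.S_ModularForm_heckeT_slash_eq_self_of_mem_Gamma0
import Fermat.Agent.S22.Algebra

/-!
Hecke packaging for S22: from a system of primitives `e τ v` compatible with Hecke operators
to finiteness of the Hecke algebra.
-/

set_option autoImplicit false

namespace Fermat.Agent.S22alg

section Hecke

open CongruenceSubgroup Matrix UpperHalfPlane ModularForm
open scoped MatrixGroups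

/-- integral version of `ModularForm.heckeMatrix` -/
def intHecke (p j : ℕ) : Matrix (Fin 2) (Fin 2) ℤ := !![1, (j : ℤ); 0, (p : ℤ)]

/-- integral version of `ModularForm.heckeDiagMatrix` -/
def intHeckeDiag (p : ℕ) : Matrix (Fin 2) (Fin 2) ℤ := !![(p : ℤ), 0; 0, 1]

theorem heckeMatrix_eq_map {p : ℕ} (hp : p ≠ 0) (j : ℕ) :
    ((heckeMatrix p j : GL (Fin 2) ℝ) : Matrix (Fin 2) (Fin 2) ℝ)
      = (intHecke p j).map (Int.cast : ℤ → ℝ) := by
  rw [val_heckeMatrix hp]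
  ext i j
  fin_cases i <;> fin_cases j <;> simp [intHecke]

theorem heckeDiagMatrix_eq_map {p : ℕ} (hp : p ≠ 0) :
    ((heckeDiagMatrix p : GL (Fin 2) ℝ) : Matrix (Fin 2) (Fin 2) ℝ)
      = (intHeckeDiag p).map (Int.cast : ℤ → ℝ) := by
  rw [val_heckeDiagMatrix hp]
  ext i j
  fin_cases i <;> fin_cases j <;> simp [intHeckeDiag]

theorem mapGL_eq_map (g : SL(2, ℤ)) :
    ((SpecialLinearGroup.mapGL ℝ g : GL (Fin 2) ℝ) : Matrix (Fin 2) (Fin 2) ℝ)
      = (g : Matrix (Fin 2) (Fin 2) ℤ).map (Int.cast : ℤ → ℝ) := by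
  ext i j
  simp

/-- Transfer of a matrix identity from `ℝ` to `ℤ`. -/
theorem int_mul_eq_of_real {A B : Matrix (Fin 2) (Fin 2) ℤ} {a b : GL (Fin 2) ℝ} {g g' : SL(2, ℤ)}
    (hA : (a : Matrix (Fin 2) (Fin 2) ℝ) = A.map (Int.cast : ℤ → ℝ))
    (hB : (b : Matrix (Fin 2) (Fin 2) ℝ) = B.map (Int.cast : ℤ → ℝ))
    (h : a * SpecialLinearGroup.mapGL ℝ g = SpecialLinearGroup.mapGL ℝ g' * b) :
    A * (g : Matrix (Fin 2) (Fin 2) ℤ) = (g' : Matrix (Fin 2) (Fin 2) ℤ) * B := by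
  have h1 := congrArg (fun x : GL (Fin 2) ℝ => (x : Matrix (Fin 2) (Fin 2) ℝ)) h
  simp only [Units.val_mul, hA, hB, mapGL_eq_map] at h1
  ext i j
  have h3 := congrFun (congrFun h1 i) j
  simp only [Matrix.mul_apply, Matrix.map_apply] at h3 ⊢
  exact_mod_cast h3

theorem mapGL_smul (g : SL(2, ℤ)) (τ : ℍ) : (SpecialLinearGroup.mapGL ℝ g) • τ = g • τ := rfl

variable {N : ℕ} [NeZero N] {k : ℤ}

/-- Interface theorem: a system `e τ v` of functionals (`v` an integral vector) behaving like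
`f ↦ ∫^τ f(z) (x - z y)^(k-2) dz`, `v = (x,y)`, gives finiteness of the Hecke algebra. -/
theorem finite_heckeAlgebra_of_periods (S : Set ℕ)
    (e : ℍ → (Fin 2 → ℤ) → Module.Dual ℂ (CuspForm (Gamma0 N) k))
    (hfin : ∀ τ, ∃ M : Submodule ℤ (Module.Dual ℂ (CuspForm (Gamma0 N) k)),
      M.FG ∧ ∀ v, e τ v ∈ M)
    (hconst : ∀ g ∈ Gamma0 N, ∀ v τ τ',
      e (g • τ) ((g : Matrix (Fin 2) (Fin 2) ℤ) *ᵥ v) - e τ v
        = e (g • τ') ((g : Matrix (Fin 2) (Fin 2) ℤ) *ᵥ v) - e τ' v)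
    (hT : ∀ (p : ℕ) (hp : p.Prime) (hpN : ¬ p ∣ N) (τ : ℍ) (v : Fin 2 → ℤ),
      (e τ v).comp (CuspForm.heckeTLin k hp hpN) =
        ∑ j ∈ Finset.range p, e (heckeMatrix p j • τ) (intHecke p j *ᵥ v)
          + e (heckeDiagMatrix p • τ) (intHeckeDiag p *ᵥ v))
    (hU : ∀ (p : ℕ) (_ : p.Prime) (hpN : p ∣ N) (τ : ℍ) (v : Fin 2 → ℤ),
      (e τ v).comp (CuspForm.heckeULin k hpN) =
        ∑ j ∈ Finset.range p, e (heckeMatrix p j • τ) (intHecke p j *ᵥ v))
    (hsep : ∀ f, (∀ g ∈ Gamma0 N, ∀ v τ,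
      e (g • τ) ((g : Matrix (Fin 2) (Fin 2) ℤ) *ᵥ v) f = e τ v f) → f = 0) :
    Module.Finite ℤ (CuspForm.heckeAlgebra N k S) := by
  classical
  -- the cocycle
  let P : Gamma0 N → (Fin 2 → ℤ) → Module.Dual ℂ (CuspForm (Gamma0 N) k) := fun g v =>
    e ((g : SL(2, ℤ)) • I) (((g : SL(2, ℤ)) : Matrix (Fin 2) (Fin 2) ℤ) *ᵥ v) - e I v
  have hP : ∀ (g : Gamma0 N) v τ,
      P g v = e ((g : SL(2, ℤ)) • τ) (((g : SL(2, ℤ)) : Matrix (Fin 2) (Fin 2) ℤ) *ᵥ v) - e τ v :=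
    fun g v τ => hconst g g.2 v I τ
  let act : MulAction (Gamma0 N) (Fin 2 → ℤ) :=
    { smul := fun g v => ((g : SL(2, ℤ)) : Matrix (Fin 2) (Fin 2) ℤ) *ᵥ v
      one_smul := fun v => by
        change ((1 : SL(2, ℤ)) : Matrix (Fin 2) (Fin 2) ℤ) *ᵥ v = v
        simp
      mul_smul := fun g h v => by
        change (((g * h : Gamma0 N) : SL(2, ℤ)) : Matrix (Fin 2) (Fin 2) ℤ) *ᵥ v =
          ((g : SL(2, ℤ)) : Matrix (Fin 2) (Fin 2) ℤ) *ᵥ
            (((h : SL(2, ℤ)) : Matrix (Fin 2) (Fin 2) ℤ) *ᵥ v)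
        rw [Matrix.mulVec_mulVec]
        rfl }
  have hsmul : ∀ (g : Gamma0 N) (v : Fin 2 → ℤ),
      g • v = ((g : SL(2, ℤ)) : Matrix (Fin 2) (Fin 2) ℤ) *ᵥ v := fun _ _ => rfl
  have hcocycle : ∀ (g h : Gamma0 N) v, P (g * h) v = P g (h • v) + P h v := by
    intro g h v
    rw [hP g (h • v) ((h : SL(2, ℤ)) • I), hP (g * h) v I, hP h v I, ← hsmul, ← hsmul, ← hsmul,
      mul_smul]
    simp only [Subgroup.coe_mul, mul_smul]
    abel
  have : Group.FG (Gamma0 N) := fg_Gamma0 N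
  let L : Submodule ℤ (Module.Dual ℂ (CuspForm (Gamma0 N) k)) :=
    Submodule.span ℤ {d | ∃ g v, d = P g v}
  have hPL : ∀ g v, P g v ∈ L := fun g v => Submodule.subset_span ⟨g, v, rfl⟩
  have hLfg : L.FG := by
    refine cocycle_fg P hcocycle ?_
    intro g
    obtain ⟨M1, hM1, hM1'⟩ := hfin ((g : SL(2, ℤ)) • I)
    obtain ⟨M2, hM2, hM2'⟩ := hfin I
    refine ⟨M1 ⊔ M2, hM1.sup hM2, fun v => ?_⟩
    exact (M1 ⊔ M2).sub_mem ((le_sup_left : M1 ≤ M1 ⊔ M2) (hM1' _))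
      ((le_sup_right : M2 ≤ M1 ⊔ M2) (hM2' _))
  refine finite_of_stable_lattice (CuspForm.heckeGenerators N k S) L hLfg ?_ ?_
  · -- stability
    have main : ∀ {ι : Type} [Fintype ι] (A : ι → Matrix (Fin 2) (Fin 2) ℤ)
        (a : ι → GL (Fin 2) ℝ)
        (_ : ∀ i, (a i : Matrix (Fin 2) (Fin 2) ℝ) = (A i).map (Int.cast : ℤ → ℝ))
        (T : Module.End ℂ (CuspForm (Gamma0 N) k))
        (_ : ∀ τ v, (e τ v).comp T = ∑ i, e (a i • τ) (A i *ᵥ v))
        (_ : ∀ g : Gamma0 N, ∃ π : Equiv.Perm ι, ∀ i, ∃ g' : Gamma0 N,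
          a i * SpecialLinearGroup.mapGL ℝ (g : SL(2, ℤ)) =
            SpecialLinearGroup.mapGL ℝ (g' : SL(2, ℤ)) * a (π i)),
        ∀ l ∈ L, l.comp T ∈ L := by
      intro ι _ A a hA T hTe hperm l hl
      induction hl using Submodule.span_induction with
      | zero => simp
      | add x y _ _ hx hy => rw [LinearMap.add_comp]; exact L.add_mem hx hy
      | smul r x _ hx =>
        have : (r • x).comp T = r • (x.comp T) := rfl
        rw [this]
        exact L.smul_mem r hx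
      | mem x hx =>
        obtain ⟨g, v, rfl⟩ := hx
        obtain ⟨π, hπ⟩ := hperm g
        choose g' hg' using hπ
        have hint : ∀ i, A i * ((g : SL(2, ℤ)) : Matrix (Fin 2) (Fin 2) ℤ) =
            ((g' i : SL(2, ℤ)) : Matrix (Fin 2) (Fin 2) ℤ) * A (π i) := fun i =>
          int_mul_eq_of_real (hA i) (hA (π i)) (hg' i)
        have h1 : (P g v).comp T = ∑ i, P (g' i) (A (π i) *ᵥ v) := by
          rw [hP g v I, LinearMap.sub_comp, hTe, hTe]
          rw [← Equiv.sum_comp π (fun i => e (a i • I) (A i *ᵥ v)), ← Finset.sum_sub_distrib]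
          refine Finset.sum_congr rfl fun i _ => ?_
          rw [hP (g' i) (A (π i) *ᵥ v) (a (π i) • I)]
          congr 2
          · rw [← mapGL_smul, ← mapGL_smul, ← mul_smul, ← mul_smul, hg' i]
          · rw [Matrix.mulVec_mulVec, Matrix.mulVec_mulVec, hint i]
        rw [h1]
        exact L.sum_mem fun i _ => hPL _ _
    rintro T (⟨p, hp, hpN, -, rfl⟩ | ⟨p, hpN, hp, -, rfl⟩)
    · have : Fact p.Prime := ⟨hp⟩
      have : NeZero p := ⟨hp.ne_zero⟩
      refine main (ι := Option (ZMod p))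
        (fun x => x.elim (intHeckeDiag p) (fun j => intHecke p j.val))
        (fun x => x.elim (heckeDiagMatrix p) (fun j => heckeMatrix p j.val)) ?_ _ ?_ ?_
      · rintro (_ | j)
        · exact heckeDiagMatrix_eq_map hp.ne_zero
        · exact heckeMatrix_eq_map hp.ne_zero _
      · intro τ v
        rw [hT p hp hpN, Fintype.sum_option, add_comm]
        congr 1
        exact P2MW.S_ModularForm_heckeT_slash_eq_self_of_mem_Gamma0.ModularForm.HeckeSlashInvariance.sum_range_eq_sum_zmod _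
      · intro g
        have hgN : (N : ℤ) ∣ (g : SL(2, ℤ)) 1 0 :=
          (ZMod.intCast_zmod_eq_zero_iff_dvd _ _).mp (CongruenceSubgroup.Gamma0_mem.mp g.2)
        refine ⟨MulAction.toPerm (P2MW.S_ModularForm_heckeT_slash_eq_self_of_mem_Gamma0.ModularForm.HeckeSlashInvariance.redMatrix p (g : SL(2, ℤ))) (β := OnePoint (ZMod p)), ?_⟩
        intro x
        obtain ⟨g', hg', hmul⟩ := P2MW.S_ModularForm_heckeT_slash_eq_self_of_mem_Gamma0.ModularForm.HeckeSlashInvariance.heckeRep_mul hpN (g : SL(2, ℤ)) hgN x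
        have hg'N : g' ∈ Gamma0 N :=
          CongruenceSubgroup.Gamma0_mem.mpr ((ZMod.intCast_zmod_eq_zero_iff_dvd _ _).mpr hg')
        exact ⟨⟨g', hg'N⟩, hmul⟩
    · have : NeZero p := ⟨hp.ne_zero⟩
      refine main (ι := ZMod p)
        (fun j => intHecke p j.val)
        (fun j => heckeMatrix p j.val) ?_ _ ?_ ?_
      · intro j
        exact heckeMatrix_eq_map hp.ne_zero _
      · intro τ v
        rw [hU p hp hpN]
        exact P2MW.S_ModularForm_heckeT_slash_eq_self_of_mem_Gamma0.ModularForm.HeckeSlashInvariance.sum_range_eq_sum_zmod _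
      · intro g
        have hgN : (N : ℤ) ∣ (g : SL(2, ℤ)) 1 0 :=
          (ZMod.intCast_zmod_eq_zero_iff_dvd _ _).mp (CongruenceSubgroup.Gamma0_mem.mp g.2)
        have hc : (p : ℤ) ∣ (g : SL(2, ℤ)) 1 0 := (Int.natCast_dvd_natCast.mpr hpN).trans hgN
        refine ⟨P2MW.S_ModularForm_heckeT_slash_eq_self_of_mem_Gamma0.ModularForm.HeckeSlashInvariance.affinePerm (g : SL(2, ℤ)) ((ZMod.intCast_zmod_eq_zero_iff_dvd _ _).mpr hc), ?_⟩
        intro x
        obtain ⟨g', hg', hmul⟩ := P2MW.S_ModularForm_heckeT_slash_eq_self_of_mem_Gamma0.ModularForm.HeckeSlashInvariance.heckeMatrix_mul_of_dvd (g : SL(2, ℤ)) hc x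
        have hg'N : g' ∈ Gamma0 N := by
          rw [CongruenceSubgroup.Gamma0_mem, hg']
          push_cast
          rw [CongruenceSubgroup.Gamma0_mem.mp g.2, mul_zero]
        exact ⟨⟨g', hg'N⟩, hmul⟩
  · -- separation
    intro f hf
    apply hsep
    intro g hg v τ
    have h1 := hf _ (hPL ⟨g, hg⟩ v)
    rw [hP ⟨g, hg⟩ v τ, LinearMap.sub_apply, sub_eq_zero] at h1
    exact h1

end Hecke

end Fermat.Agent.S22alg
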