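/-
Assembly of S22.
-/
import Mathlib
import Fermat.Agent.S22.Nondeg2
import Fermat.Agent.S22.Packaging
import Fermat.Agent.S22.OfIntegral

set_option autoImplicit false

namespace Fermat.Agent.S22aux

open Complex Filter Topology Metric Function UpperHalfPlane CongruenceSubgroup ModularGroup Matrix
open scoped MatrixGroups ModularForm Manifold

variable {N : ℕ} [NeZero N] {m : ℕ}

theorem prim_add {φ ψ : ℍ → ℂ} (hφ : HasPrims φ) (hψ : HasPrims ψ) (h : HasPrims (φ + ψ)) (j : ℕ)
    (τ : ℍ) : prim (φ + ψ) j τ = prim φ j τ + prim ψ j τ :=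
  IsPrim.unique (h.isPrim j) ((hφ.isPrim j).add (hψ.isPrim j))
    (fun z _ => by simp [add_mul]) τ.im_pos

theorem prim_smul {φ : ℍ → ℂ} (hφ : HasPrims φ) (c : ℂ) (h : HasPrims (c • φ)) (j : ℕ)
    (τ : ℍ) : prim (c • φ) j τ = c * prim φ j τ :=
  IsPrim.unique (h.isPrim j) ((hφ.isPrim j).const_mul c)
    (fun z _ => by simp [mul_assoc]) τ.im_pos

/-- `prim f j τ` as a functional in `f` -/
noncomputable def primLin (m j : ℕ) (τ : ℍ) :
    Module.Dual ℂ (CuspForm (Gamma0 N) ((m : ℤ) + 2)) where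
  toFun f := prim f j τ
  map_add' f g := by
    have h := hasPrims (f + g)
    rw [FunLike.coe_add] at h ⊢
    exact prim_add (hasPrims f) (hasPrims g) h j τ
  map_smul' c f := by
    have h := hasPrims (c • f)
    rw [FunLike.coe_smul] at h ⊢
    exact prim_smul (hasPrims f) c h j τ

/-- `EE f m τ v` as a functional in `f`. -/
noncomputable def eLin (m : ℕ) (τ : ℍ) (v : Fin 2 → ℤ) :
    Module.Dual ℂ (CuspForm (Gamma0 N) ((m : ℤ) + 2)) :=
  ∑ j ∈ Finset.range (m + 1),
    ((m.choose j : ℤ) * (v 0) ^ (m - j) * (-(v 1)) ^ j) • primLin m j τ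

theorem eLin_apply (τ : ℍ) (v : Fin 2 → ℤ) (f : CuspForm (Gamma0 N) ((m : ℤ) + 2)) :
    eLin m τ v f = EE f m τ (v 0) (v 1) := by
  unfold eLin EE Eint
  rw [LinearMap.sum_apply]
  refine Finset.sum_congr rfl fun j _ => ?_
  rw [LinearMap.smul_apply, zsmul_eq_mul]
  push_cast
  rfl

theorem eLin_mem_fg (τ : ℍ) : ∃ M : Submodule ℤ (Module.Dual ℂ (CuspForm (Gamma0 N) ((m : ℤ) + 2))),
    M.FG ∧ ∀ v, eLin m τ v ∈ M := by
  refine ⟨Submodule.span ℤ ((fun j => primLin m j τ) '' (Finset.range (m + 1) : Set ℕ)),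
    Submodule.fg_span ((Finset.finite_toSet _).image _), fun v => ?_⟩
  unfold eLin
  refine Submodule.sum_mem _ fun j hj => Submodule.smul_mem _ _ (Submodule.subset_span ?_)
  exact ⟨j, hj, rfl⟩

theorem finite_heckeAlgebra_two_le (N : ℕ) [NeZero N] (m : ℕ) (S : Set ℕ) :
    Module.Finite ℤ (CuspForm.heckeAlgebra N ((m : ℤ) + 2) S) := by
  have hup : ∀ (p : ℕ), p ≠ 0 → ∀ j : ℕ, (ModularForm.heckeMatrix p j) 1 0 = 0 ∧
      0 < (ModularForm.heckeMatrix p j) 0 0 := by
    intro p hp j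
    rw [ModularForm.val_heckeMatrix hp]
    simp
  have hupd : ∀ (p : ℕ), p ≠ 0 → (ModularForm.heckeDiagMatrix p) 1 0 = 0 ∧
      0 < (ModularForm.heckeDiagMatrix p) 0 0 := by
    intro p hp
    rw [ModularForm.val_heckeDiagMatrix hp]
    simp [Nat.pos_of_ne_zero hp]
  refine S22alg.finite_heckeAlgebra_of_periods S (fun τ v => eLin m τ v) eLin_mem_fg ?_ ?_ ?_ ?_
  · -- constancy
    intro g hg v τ τ'
    ext f
    simp only [LinearMap.sub_apply, eLin_apply]
    have h := EE_smul_sub_const (hasPrims f) (hasPrims f) m (g : GL (Fin 2) ℝ) (det_pos_SL g)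
      (slash_Gamma0 f hg) (v 0) (v 1) τ τ'
    simpa [Matrix.mulVec, dotProduct, Fin.sum_univ_two] using h
  · -- T_p
    intro p hp hpN τ v
    ext f
    rw [LinearMap.comp_apply, LinearMap.add_apply, LinearMap.sum_apply]
    simp only [eLin_apply]
    have hsum : (⇑(CuspForm.heckeTLin ((m : ℤ) + 2) hp hpN f) : ℍ → ℂ) =
        ∑ x : Option (Fin p), (⇑f : ℍ → ℂ) ∣[((m : ℤ) + 2)]
          (x.elim (ModularForm.heckeDiagMatrix p) (fun j => ModularForm.heckeMatrix p j)) := by
      rw [CuspForm.coe_heckeTLin_apply, ModularForm.heckeT_def, Fintype.sum_option, add_comm,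
        Finset.sum_range]
      rfl
    have h := EE_sum_upper Finset.univ (hasPrims f)
      (hasPrims (CuspForm.heckeTLin ((m : ℤ) + 2) hp hpN f)) m
      (fun x : Option (Fin p) => x.elim (ModularForm.heckeDiagMatrix p)
        (fun j => ModularForm.heckeMatrix p j)) ?_ ?_ ?_ hsum (v 0) (v 1) τ
    · rw [h, Fintype.sum_option, add_comm, Finset.sum_range]
      simp only [Option.elim]
      congr 1
      · refine Finset.sum_congr rfl fun j _ => ?_
        rw [ModularForm.val_heckeMatrix hp.ne_zero]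
        simp [S22alg.intHecke, Matrix.mulVec, dotProduct, Fin.sum_univ_two]
      · rw [ModularForm.val_heckeDiagMatrix hp.ne_zero]
        simp [S22alg.intHeckeDiag, Matrix.mulVec, dotProduct, Fin.sum_univ_two]
    · rintro (_ | j) _
      · exact ModularForm.det_heckeDiagMatrix_pos p
      · exact ModularForm.det_heckeMatrix_pos p j
    · rintro (_ | j) _
      · exact (hupd p hp.ne_zero).1
      · exact (hup p hp.ne_zero j).1
    · rintro (_ | j) _
      · exact (hupd p hp.ne_zero).2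
      · exact (hup p hp.ne_zero j).2
  · -- U_p
    intro p hp hpN τ v
    ext f
    rw [LinearMap.comp_apply, LinearMap.sum_apply]
    simp only [eLin_apply]
    have hsum : (⇑(CuspForm.heckeULin ((m : ℤ) + 2) hpN f) : ℍ → ℂ) =
        ∑ j ∈ Finset.range p, (⇑f : ℍ → ℂ) ∣[((m : ℤ) + 2)] (ModularForm.heckeMatrix p j) := by
      rw [CuspForm.coe_heckeULin_apply, ModularForm.heckeU_def]
    have h := EE_sum_upper (Finset.range p) (hasPrims f)
      (hasPrims (CuspForm.heckeULin ((m : ℤ) + 2) hpN f)) m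
      (fun j => ModularForm.heckeMatrix p j)
      (fun j _ => ModularForm.det_heckeMatrix_pos p j)
      (fun j _ => (hup p hp.ne_zero j).1) (fun j _ => (hup p hp.ne_zero j).2) hsum (v 0) (v 1) τ
    rw [h]
    refine Finset.sum_congr rfl fun j _ => ?_
    rw [ModularForm.val_heckeMatrix hp.ne_zero]
    simp [S22alg.intHecke, Matrix.mulVec, dotProduct, Fin.sum_univ_two]
  · -- separation
    intro f hf
    refine eq_zero_of_periodsVanish f fun g hg x y => ?_
    have h := hf g hg ![x, y] UpperHalfPlane.I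
    simp only [eLin_apply] at h
    unfold period
    rw [slash_Gamma0 f hg, sub_eq_zero]
    simpa [Matrix.mulVec, dotProduct, Fin.sum_univ_two] using h

theorem cuspForm_weight_one_eq_zero (N : ℕ) (f : CuspForm (Gamma0 N) 1) : f = 0 := by
  ext τ
  have hmem : (-1 : SL(2, ℤ)) ∈ Gamma0 N := by
    rw [Gamma0_mem]; simp
  have h := congrFun (slash_Gamma0 f hmem) τ
  rw [ModularForm.SL_slash_apply] at h
  have h1 : ((-1 : SL(2, ℤ)) • τ : ℍ) = τ := by
    rw [ModularGroup.SL_neg_smul, one_smul]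
  have h2 : denom (((-1 : SL(2, ℤ))) : GL (Fin 2) ℝ) (τ : ℂ) = -1 := by
    simp [denom]
  rw [h1, h2] at h
  have h3 : f τ = 0 := by
    have : f τ * (-1 : ℂ) ^ (-1 : ℤ) = - f τ := by norm_num
    rw [this] at h
    have h4 : (2 : ℂ) * f τ = 0 := by linear_combination -h
    simpa using h4
  simpa using h3

theorem finite_heckeAlgebra (N : ℕ) [NeZero N] (k : ℤ) (S : Set ℕ) :
    Module.Finite ℤ (CuspForm.heckeAlgebra N k S) := by
  rcases lt_trichotomy k 1 with hk | hk | hk
  · exact S22alg.finite_heckeAlgebra_of_nonpos N (by omega) S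
  · subst hk
    have hsub : Subsingleton (CuspForm (Gamma0 N) 1) :=
      ⟨fun f g => by rw [cuspForm_weight_one_eq_zero N f, cuspForm_weight_one_eq_zero N g]⟩
    have : Subsingleton (CuspForm.heckeAlgebra N 1 S) := ⟨fun a b => by
      apply Subtype.ext
      ext f : 1
      exact Subsingleton.elim _ _⟩
    infer_instance
  · obtain ⟨m, hm⟩ : ∃ m : ℕ, k = (m : ℤ) + 2 := ⟨(k - 2).toNat, by omega⟩
    subst hm
    exact finite_heckeAlgebra_two_le N m S

end Fermat.Agent.S22aux
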